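/-
helper34: P-SS row 971 (KT-C1 VAL2), part 1: BRIDGE between the two languages for the Gauss
valuation ring of the model field, and invariance under coefficientwise automorphisms.

* `vInf_eq_mgVal` : helper7's `vInf K₁ A₀ N` (`InV` language, abstract discrete valuation ring
  `A₀`) is helper65's `mgVal (rangeVal A₀ K₁) N` (`vGaussRing` language).
* `inV_coeffMap` : the Gauss valuation ring of a stable intermediate field is stable under the
  coefficientwise action of a ring homomorphism of `K₁` preserving `A₀`.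
* `preserves_symm` : an automorphism of a number field which maps `A₀` into itself maps `A₀`
  onto itself.
-/
import Fermat.Agent.H7.SS2.Vertical
import Fermat.Agent.H65.E6.ModelGauss
import Fermat.Agent.H66.SS.FracVal

set_option autoImplicit false
set_option linter.style.haveILetI false
set_option linter.unusedSectionVars false

noncomputable section

namespace Fermat.Agent.H34.SS

open ModularCurve
open Fermat.Agent.H22.KL Fermat.Agent.H48.QExp Fermat.Agent.H82.SS Fermat.Agent.H7.SS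
open Fermat.Agent.H7.SS2 Fermat.Agent.H66 Fermat.Agent.H65
open Fermat.Agent.H55.SS (rangeVal toRangeVal isUnit_toRangeVal_iff mem_rangeVal_iff)

/-! ### The bridge -/

section Bridge

variable (K₁ : Type) [Field K₁] (A₀ : Type) [CommRing A₀] [IsDomain A₀]
  [IsDiscreteValuationRing A₀] [Algebra A₀ K₁] [IsFractionRing A₀ K₁]

/-- Coefficientwise `A₀((t)) → A₁((t))`, `A₁ = rangeVal A₀ K₁`. -/
def ktToRange : LaurentSeries A₀ →+* LaurentSeries ↥(rangeVal A₀ K₁) :=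
  coeffMap (toRangeVal A₀ K₁)

theorem ktToRange_coeff (a : LaurentSeries A₀) (n : ℤ) :
    (ktToRange K₁ A₀ a).coeff n = toRangeVal A₀ K₁ (a.coeff n) := rfl

theorem vIota_ktToRange (a : LaurentSeries A₀) :
    vIota (rangeVal A₀ K₁) (ktToRange K₁ A₀ a) = gIota K₁ A₀ a := by
  ext n
  rfl

theorem vRho_ktToRange_ne_zero {b : LaurentSeries A₀} (hb : gRho A₀ b ≠ 0) :
    vRho (rangeVal A₀ K₁) (ktToRange K₁ A₀ b) ≠ 0 := by
  rw [vRho_ne_zero_iff]
  by_contra hcon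
  push Not at hcon
  apply hb
  ext n
  rw [coeffMap_coeff, HahnSeries.coeff_zero, IsLocalRing.residue_eq_zero_iff,
    IsLocalRing.mem_maximalIdeal]
  intro hu
  exact hcon n ((isUnit_toRangeVal_iff A₀ K₁ (b.coeff n)).2 hu)

theorem vRho_ktToRange_eq_zero {a : LaurentSeries A₀} (ha : gRho A₀ a = 0) :
    vRho (rangeVal A₀ K₁) (ktToRange K₁ A₀ a) = 0 := by
  by_contra hcon
  obtain ⟨m, hm⟩ := (vRho_ne_zero_iff _ _).1 hcon
  rw [ktToRange_coeff, isUnit_toRangeVal_iff] at hm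
  have h1 : IsLocalRing.residue A₀ (a.coeff m) = 0 := by
    rw [← coeffMap_coeff, show coeffMap (IsLocalRing.residue A₀) a = 0 from ha,
      HahnSeries.coeff_zero]
  rw [IsLocalRing.residue_eq_zero_iff] at h1
  exact (IsLocalRing.mem_maximalIdeal _).1 h1 hm

variable {K₁ A₀}

/-- `InV` implies membership in the Gauss ring. -/
theorem mem_vGaussRing_of_inV {E : IntermediateField K₁ (LaurentSeries K₁)}
    {z : LaurentSeries K₁} (h : InV (A₀ := A₀) E z) : z ∈ vGaussRing (rangeVal A₀ K₁) := by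
  obtain ⟨a, b, -, -, hrb, hab⟩ := h
  exact ⟨ktToRange K₁ A₀ a, ktToRange K₁ A₀ b, vRho_ktToRange_ne_zero K₁ A₀ hrb,
    by rw [vIota_ktToRange, vIota_ktToRange]; exact hab⟩

/-- An element of `E` in the Gauss ring satisfies `InV` (Gauss normal forms in `E`). -/
theorem inV_of_mem_vGaussRing {E : IntermediateField K₁ (LaurentSeries K₁)}
    (hG : HasGNF A₀ E) {z : LaurentSeries K₁} (hzE : z ∈ E)
    (hz : z ∈ vGaussRing (rangeVal A₀ K₁)) : InV (A₀ := A₀) E z := by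
  by_cases hz0 : z = 0
  · rw [hz0]
    exact inV_zero E
  obtain ⟨c, a, b, hc, ha, hb, hra, hrb, h⟩ := hG z hzE hz0
  have hcA : c ∈ rangeVal A₀ K₁ := by
    refine mem_of_algebraMap_mul_mem (rangeVal A₀ K₁)
      (u := ⟨_, vIota_mem_vGaussRing (rangeVal A₀ K₁) (ktToRange K₁ A₀ a)⟩)
      (by rw [vGaussRed_vIota]; exact vRho_ktToRange_ne_zero K₁ A₀ hra) ?_
    show algebraMap K₁ (LaurentSeries K₁) c * vIota (rangeVal A₀ K₁) (ktToRange K₁ A₀ a) ∈
      vGaussRing (rangeVal A₀ K₁)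
    rw [vIota_ktToRange, ← h, ← vIota_ktToRange]
    exact mul_mem hz (vIota_mem_vGaussRing (rangeVal A₀ K₁) _)
  obtain ⟨c₀, hc₀⟩ := (mem_rangeVal_iff A₀ K₁ c).1 hcA
  refine ⟨algebraMap A₀ (LaurentSeries A₀) c₀ * a, b, ?_, hb, hrb, ?_⟩
  · rw [gIota_algebraMap_mul]
    exact E.mul_mem (E.algebraMap_mem _) ha
  · rw [gIota_algebraMap_mul, hc₀, h]

end Bridge

section BridgeModel

variable (K₁ : Type) [Field K₁] [Algebra ℚ K₁] (A₀ : Type) [CommRing A₀] [IsDomain A₀]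
  [IsDiscreteValuationRing A₀] [Algebra A₀ K₁] [IsFractionRing A₀ K₁] (N : ℕ)

/-- **BRIDGE**: helper7's `vInf` is helper65's `mgVal` for `A₁ = rangeVal A₀ K₁`. -/
theorem vInf_eq_mgVal : vInf K₁ A₀ N = mgVal (rangeVal A₀ K₁) N := by
  ext z
  constructor
  · intro h
    exact mem_vGaussRing_of_inV ((mem_vInf_iff z).1 h)
  · intro h
    exact (mem_vInf_iff z).2
      (inV_of_mem_vGaussRing (hasGNF_model K₁ A₀ N) z.2 ((mem_mgVal_iff _ N z).1 h))

theorem mem_vInf_iff_mem_vGaussRing (z : ModelField K₁ N) :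
    z ∈ vInf K₁ A₀ N ↔ (z : LaurentSeries K₁) ∈ vGaussRing (rangeVal A₀ K₁) := by
  rw [vInf_eq_mgVal]
  exact mem_mgVal_iff _ N z

end BridgeModel

/-! ### Coefficientwise automorphisms -/

section Sigma

variable {K₁ : Type} [Field K₁] {A₀ : Type} [CommRing A₀] [IsDomain A₀]
  [IsDiscreteValuationRing A₀] [Algebra A₀ K₁] [IsFractionRing A₀ K₁]

/-- `σ₁` maps (the image of) `A₀` into itself. -/
def Preserves (A₀ : Type) [CommRing A₀] [Algebra A₀ K₁] (σ₁ : K₁ →+* K₁) : Prop :=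
  ∀ a : A₀, ∃ b : A₀, algebraMap A₀ K₁ b = σ₁ (algebraMap A₀ K₁ a)

theorem Preserves.isUnit {σ₁ : K₁ →+* K₁} (hσ : Preserves A₀ σ₁) {u b : A₀} (hu : IsUnit u)
    (hb : algebraMap A₀ K₁ b = σ₁ (algebraMap A₀ K₁ u)) : IsUnit b := by
  have hφ : Function.Injective (algebraMap A₀ K₁) := IsFractionRing.injective A₀ K₁
  obtain ⟨v, hv⟩ := hu.exists_right_inv
  obtain ⟨v', hv'⟩ := hσ v
  refine IsUnit.of_mul_eq_one v' ?_
  apply hφ
  rw [map_mul, hb, hv', ← map_mul, ← map_mul, hv]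
  simp only [map_one]

/-- Lifting the coefficientwise action to `A₀((t))`; primitive series stay primitive. -/
theorem Preserves.exists_lift {σ₁ : K₁ →+* K₁} (hσ : Preserves A₀ σ₁) (a : LaurentSeries A₀) :
    ∃ a' : LaurentSeries A₀, gIota K₁ A₀ a' = coeffMap σ₁ (gIota K₁ A₀ a) ∧
      (gRho A₀ a ≠ 0 → gRho A₀ a' ≠ 0) := by
  have hφ : Function.Injective (algebraMap A₀ K₁) := IsFractionRing.injective A₀ K₁
  obtain ⟨a', ha'⟩ := exists_coeffMap_eq (algebraMap A₀ K₁) hφ (coeffMap σ₁ (gIota K₁ A₀ a))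
    (fun n => by
      obtain ⟨b, hb⟩ := hσ (a.coeff n)
      refine ⟨b, ?_⟩
      rw [hb, coeffMap_coeff, coeffMap_coeff])
  refine ⟨a', ha', fun hra => ?_⟩
  -- a unit coefficient
  have hex : ∃ m, IsUnit (a.coeff m) := by
    by_contra hcon
    push Not at hcon
    apply hra
    ext n
    rw [coeffMap_coeff, HahnSeries.coeff_zero, IsLocalRing.residue_eq_zero_iff,
      IsLocalRing.mem_maximalIdeal]
    exact hcon n
  obtain ⟨m, hm⟩ := hex
  have h1 : algebraMap A₀ K₁ (a'.coeff m) = σ₁ (algebraMap A₀ K₁ (a.coeff m)) := by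
    rw [← coeffMap_coeff (algebraMap A₀ K₁) a', show coeffMap (algebraMap A₀ K₁) a' = _ from ha',
      coeffMap_coeff, coeffMap_coeff]
  have h2 : IsUnit (a'.coeff m) := hσ.isUnit hm h1
  apply coeffMap_ne_zero_of_coeff _ a' m
  rw [Ne, IsLocalRing.residue_eq_zero_iff]
  exact fun hmem => (IsLocalRing.mem_maximalIdeal _).1 hmem h2

/-- The Gauss valuation ring of a stable field is stable under the coefficientwise action. -/
theorem inV_coeffMap {E : IntermediateField K₁ (LaurentSeries K₁)} {σ₁ : K₁ →+* K₁}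
    (hσ : Preserves A₀ σ₁) (hE : ∀ y ∈ E, coeffMap σ₁ y ∈ E) {x : LaurentSeries K₁}
    (hx : InV (A₀ := A₀) E x) : InV (A₀ := A₀) E (coeffMap σ₁ x) := by
  obtain ⟨a, b, ha, hb, hrb, h⟩ := hx
  obtain ⟨a', ha', -⟩ := hσ.exists_lift a
  obtain ⟨b', hb', hrb'⟩ := hσ.exists_lift b
  refine ⟨a', b', ?_, ?_, hrb' hrb, ?_⟩
  · rw [ha']
    exact hE _ ha
  · rw [hb']
    exact hE _ hb
  · rw [ha', hb', ← map_mul, h]

theorem Preserves.one : Preserves A₀ (RingHom.id K₁) := fun a => ⟨a, rfl⟩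

theorem Preserves.comp {σ₁ τ₁ : K₁ →+* K₁} (hσ : Preserves A₀ σ₁) (hτ : Preserves A₀ τ₁) :
    Preserves A₀ (σ₁.comp τ₁) := by
  intro a
  obtain ⟨b, hb⟩ := hτ a
  obtain ⟨c, hc⟩ := hσ b
  exact ⟨c, by rw [hc, hb]; rfl⟩

end Sigma

section SigmaModel

variable {K₁ : Type} [Field K₁] [Algebra ℚ K₁] [FiniteDimensional ℚ K₁]
  {A₀ : Type} [CommRing A₀] [IsDomain A₀]
  [IsDiscreteValuationRing A₀] [Algebra A₀ K₁] [IsFractionRing A₀ K₁]

theorem preserves_pow (σ₁ : K₁ ≃ₐ[ℚ] K₁) (hσ : Preserves A₀ (σ₁ : K₁ →+* K₁)) (n : ℕ) :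
    Preserves A₀ ((σ₁ ^ n : K₁ ≃ₐ[ℚ] K₁) : K₁ →+* K₁) := by
  induction n with
  | zero =>
    intro a
    exact ⟨a, rfl⟩
  | succ n ih =>
    intro a
    obtain ⟨b, hb⟩ := hσ a
    obtain ⟨c, hc⟩ := ih b
    refine ⟨c, ?_⟩
    rw [hc, hb, pow_succ]
    rfl

/-- An automorphism of a number field which maps `A₀` into itself maps `A₀` onto itself. -/
theorem preserves_symm (σ₁ : K₁ ≃ₐ[ℚ] K₁) (hσ : Preserves A₀ (σ₁ : K₁ →+* K₁)) :
    Preserves A₀ (σ₁.symm : K₁ →+* K₁) := by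
  have hfin : IsOfFinOrder σ₁ := isOfFinOrder_of_finite σ₁
  have hpos : 0 < orderOf σ₁ := hfin.orderOf_pos
  have h1 : σ₁ ^ (orderOf σ₁ - 1) * σ₁ = 1 := by
    rw [← pow_succ, Nat.sub_add_cancel hpos, pow_orderOf_eq_one]
  have h2 : σ₁.symm = σ₁ ^ (orderOf σ₁ - 1) := by
    have h3 : σ₁⁻¹ = σ₁ ^ (orderOf σ₁ - 1) := (eq_inv_of_mul_eq_one_left h1).symm
    rw [← h3]
    rfl
  rw [h2]
  exact preserves_pow σ₁ hσ _

variable (N : ℕ)

/-- `modelSigma σ₁` maps `V_∞` into itself. -/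
theorem modelSigma_mem_vInf (σ₁ : K₁ ≃ₐ[ℚ] K₁) (hσ : Preserves A₀ (σ₁ : K₁ →+* K₁))
    {z : ModelField K₁ N} (hz : z ∈ vInf K₁ A₀ N) : modelSigma K₁ N σ₁ z ∈ vInf K₁ A₀ N := by
  rw [mem_vInf_iff] at hz ⊢
  have hE : ∀ y ∈ laurentBaseChange K₁ (modularFunctionFieldFull N),
      coeffMap (σ₁ : K₁ →+* K₁) y ∈ laurentBaseChange K₁ (modularFunctionFieldFull N) :=
    fun y hy => (modelSigma K₁ N σ₁ ⟨y, hy⟩).2
  exact inV_coeffMap hσ hE hz

/-- **(INV)** `modelSigma σ₁` preserves `V_∞`. -/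
theorem modelSigma_mem_vInf_iff (σ₁ : K₁ ≃ₐ[ℚ] K₁) (hσ : Preserves A₀ (σ₁ : K₁ →+* K₁))
    (z : ModelField K₁ N) : modelSigma K₁ N σ₁ z ∈ vInf K₁ A₀ N ↔ z ∈ vInf K₁ A₀ N := by
  constructor
  · intro h
    have h1 := modelSigma_mem_vInf N σ₁.symm (preserves_symm σ₁ hσ) h
    have h2 : modelSigma K₁ N σ₁.symm (modelSigma K₁ N σ₁ z) = z :=
      (modelSigma K₁ N σ₁).symm_apply_apply z
    rwa [h2] at h1
  · exact modelSigma_mem_vInf N σ₁ hσ

/-- **(INV)** `modelSigma σ₁` preserves `V_0` (`q` prime: `W` commutes with `modelSigma`). -/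
theorem modelSigma_mem_vZero_iff (M q : ℕ) [NeZero M] [NeZero q] (hq : q.Prime)
    (W : ModelField K₁ (M * q) ≃ₐ[K₁] ModelField K₁ (M * q)) (hW : IsAtkinLehnerModel K₁ M q W)
    (σ₁ : K₁ ≃ₐ[ℚ] K₁) (hσ : Preserves A₀ (σ₁ : K₁ →+* K₁)) (z : ModelField K₁ (M * q)) :
    modelSigma K₁ (M * q) σ₁ z ∈ vZero K₁ A₀ (M * q) W ↔ z ∈ vZero K₁ A₀ (M * q) W := by
  rw [mem_vZero_iff, mem_vZero_iff,
    Fermat.Agent.H4.SS.atkinLehnerComm_prime M q hq K₁ W hW σ₁ z]
  exact modelSigma_mem_vInf_iff (M * q) σ₁ hσ (W z)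

end SigmaModel

end Fermat.Agent.H34.SS

end
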