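/-
helper34: P-SS row 971 (KT-C1 VAL2), part 2: THE TABLE of the two vertical valuations at level
`M q` over an UNRAMIFIED base.

`q` prime, `q ∤ M`, `K₁` a number field, `A₀` a discrete valuation ring of `K₁` in which `q` is a
uniformiser, `E₀' = ModelField K₁ M`, `E₀ = ModelField K₁ (M q)`, `α, β : E₀' → E₀` the two
degeneracy maps, `W` the Atkin-Lehner automorphism (`W α = β`, `W β = α`).

`V' = vInf K₁ A₀ M`, `V_∞ = vInf K₁ A₀ (M q)` (Gauss valuation rings of `q`-expansions, helper7;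
`= mgVal (rangeVal A₀ K₁) _` by `vInf_eq_mgVal`), `V_0 = vZero K₁ A₀ (M q) W = V_∞.comap W`.

* `alpha_mem_vInf_iff`, `beta_mem_vZero_iff` (+ `nonunits` versions)      : **(T1)**
* `ktVert_vInf`, `ktVert_vZero`                                           : `KtVert q V`
* `vInf_ne_vZero`                                                         : `V_∞ ≠ V_0`
* `ktApprox`                                                              : **(APPROX)**
* `ktFrac_alpha`, `ktFrac_beta`                                           : **(F1)**, **(F2)**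
* (INV) is `modelSigma_mem_vInf_iff`, `modelSigma_mem_vZero_iff` of part 1;
  (hC), `IsVertical`, "only two" are helper7's `mem_gaussClosure_iff_vInf_vZero`,
  `isVertical_vInf`, `isVertical_vZero`, `vertical_eq_or`.
-/
import Fermat.Agent.H34.SS.KtValBridge
import Fermat.Agent.H18.SS2.Approx
import Fermat.Agent.H55.SS.KTContract
import Fermat.Agent.H66.SS.Frac

set_option autoImplicit false
set_option linter.style.haveILetI false
set_option linter.unusedSectionVars false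

noncomputable section

namespace Fermat.Agent.H34.SS

open ModularCurve
open Fermat.Agent.H22.KL Fermat.Agent.H48.QExp Fermat.Agent.H82.SS Fermat.Agent.H7.SS
open Fermat.Agent.H7.SS2 Fermat.Agent.H11.SS2 Fermat.Agent.H66 Fermat.Agent.H65
open Fermat.Agent.H55.SS (KtVert)

/-! ### Abstract valuation lemmas -/

section Abstract

variable {F : Type} [Field F]

theorem mul_mem_nonunits_of_mem (V : ValuationSubring F) {a b : F} (ha : a ∈ V.nonunits)
    (hb : b ∈ V) : a * b ∈ V.nonunits := by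
  rw [ValuationSubring.mem_nonunits_iff] at ha ⊢
  rw [map_mul]
  have h1 : V.valuation b ≤ 1 := (ValuationSubring.valuation_le_one_iff _ _).2 hb
  calc V.valuation a * V.valuation b ≤ V.valuation a * 1 := by gcongr
    _ = V.valuation a := mul_one _
    _ < 1 := ha

theorem inv_mem_of_not_mem_nonunits (V : ValuationSubring F) {a : F}
    (ha : a ∉ V.nonunits) : a ≠ 0 ∧ a⁻¹ ∈ V := by
  rw [ValuationSubring.mem_nonunits_iff_or] at ha
  push Not at ha
  exact ha

/-- A discrete valuation subring with uniformiser `q` satisfies `KtVert q`. -/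
theorem ktVert_of_uniformiser (q : ℕ) (V : ValuationSubring F) (hV : V ≠ ⊤)
    (hP : IsPrincipalIdealRing V) (hU : IsUniformiser F V ((q : ℕ) : F)) : KtVert q V := by
  obtain ⟨-, h1, h2⟩ := hU
  refine ⟨h1, h2, fun s hs c => ?_⟩
  have hR : Fermat.Agent.H18.SS2.IsRankOneVS V :=
    Fermat.Agent.H18.SS2.isRankOneVS_of_pid V hV
  by_cases hs0 : s = 0
  · refine ⟨1, fun N hN => ?_⟩
    rw [hs0, zero_pow (by omega), zero_mul, ValuationSubring.mem_nonunits_iff, map_zero]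
    exact zero_lt_one
  · obtain ⟨n₀, hn₀⟩ := hR.exists_pow_lt ((ValuationSubring.mem_nonunits_iff V).1 hs) hs0 c
    exact ⟨n₀, fun N hN => (ValuationSubring.mem_nonunits_iff V).2 (hn₀ N hN)⟩

end Abstract

/-! ### One level -/

section OneLevel

variable (K₁ : Type) [Field K₁] [Algebra ℚ K₁]
  (A₀ : Type) [CommRing A₀] [IsDomain A₀] [IsDiscreteValuationRing A₀]
  [Algebra A₀ K₁] [IsFractionRing A₀ K₁] (N : ℕ)

theorem natCast_uniformiser (q : ℕ) :
    algebraMap K₁ (ModelField K₁ N) (algebraMap A₀ K₁ ((q : ℕ) : A₀)) =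
      ((q : ℕ) : ModelField K₁ N) := by
  rw [map_natCast, map_natCast]

/-- `q` is a uniformiser of `V_∞` (unramified base). -/
theorem isUniformiser_vInf_natCast (q : ℕ) (hqirr : Irreducible ((q : ℕ) : A₀)) :
    IsUniformiser (ModelField K₁ N) (vInf K₁ A₀ N) ((q : ℕ) : ModelField K₁ N) := by
  rw [← natCast_uniformiser K₁ A₀ N q]
  exact isUniformiser_gaussVal _ (hasGNF_model K₁ A₀ N) hqirr

/-- `q` is a uniformiser of `V_0` (unramified base). -/
theorem isUniformiser_vZero_natCast (W : ModelField K₁ N ≃ₐ[K₁] ModelField K₁ N) (q : ℕ)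
    (hqirr : Irreducible ((q : ℕ) : A₀)) :
    IsUniformiser (ModelField K₁ N) (vZero K₁ A₀ N W) ((q : ℕ) : ModelField K₁ N) := by
  obtain ⟨h0, h1, h2⟩ := isUniformiser_vInf_natCast K₁ A₀ N q hqirr
  have hW : W ((q : ℕ) : ModelField K₁ N) = ((q : ℕ) : ModelField K₁ N) := map_natCast W q
  refine ⟨h0, ?_, fun y hy => ?_⟩
  · rw [mem_nonunits_vZero_iff, hW]
    exact h1
  · rw [mem_vZero_iff, map_div₀, hW]
    exact h2 _ ((mem_nonunits_vZero_iff W y).1 hy)

theorem vInf_ne_top' (q : ℕ) (hqirr : Irreducible ((q : ℕ) : A₀)) : vInf K₁ A₀ N ≠ ⊤ := by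
  intro h
  obtain ⟨h0, h1, -⟩ := isUniformiser_vInf_natCast K₁ A₀ N q hqirr
  rw [ValuationSubring.mem_nonunits_iff_or] at h1
  rcases h1 with h1 | h1
  · exact h0 h1
  · exact h1 (h ▸ ValuationSubring.mem_top _)

theorem vZero_ne_top' (W : ModelField K₁ N ≃ₐ[K₁] ModelField K₁ N) (q : ℕ)
    (hqirr : Irreducible ((q : ℕ) : A₀)) : vZero K₁ A₀ N W ≠ ⊤ := by
  intro h
  obtain ⟨h0, h1, -⟩ := isUniformiser_vZero_natCast K₁ A₀ N W q hqirr
  rw [ValuationSubring.mem_nonunits_iff_or] at h1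
  rcases h1 with h1 | h1
  · exact h0 h1
  · exact h1 (h ▸ ValuationSubring.mem_top _)

theorem isPrincipalIdealRing_vInf' (q : ℕ) (hqirr : Irreducible ((q : ℕ) : A₀)) :
    IsPrincipalIdealRing (vInf K₁ A₀ N) :=
  isPrincipalIdealRing_gaussVal _ (hasGNF_model K₁ A₀ N) hqirr

theorem isPrincipalIdealRing_vZero' (W : ModelField K₁ N ≃ₐ[K₁] ModelField K₁ N) (q : ℕ)
    (hqirr : Irreducible ((q : ℕ) : A₀)) : IsPrincipalIdealRing (vZero K₁ A₀ N W) := by
  obtain ⟨h0, h1, h2⟩ := isUniformiser_vZero_natCast K₁ A₀ N W q hqirr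
  refine isPrincipalIdealRing_of_factor _ _ h0 h1 h2 fun x hx hx0 => ?_
  have hWx0 : W x ≠ 0 := (EmbeddingLike.map_ne_zero_iff).2 hx0
  obtain ⟨n, h3, h4⟩ := gaussVal_factor _ (hasGNF_model K₁ A₀ N) hqirr (W x)
    ((mem_vZero_iff W x).1 hx) hWx0
  have hW : W ((q : ℕ) : ModelField K₁ N) = ((q : ℕ) : ModelField K₁ N) := map_natCast W q
  rw [natCast_uniformiser K₁ A₀ N q] at h3 h4
  refine ⟨n, ?_, ?_⟩
  · rw [mem_vZero_iff, map_div₀, map_pow, hW]
    exact h3
  · rw [mem_vZero_iff, map_div₀, map_pow, hW]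
    exact h4

/-- **`KtVert q V_∞`.** -/
theorem ktVert_vInf (q : ℕ) (hqirr : Irreducible ((q : ℕ) : A₀)) : KtVert q (vInf K₁ A₀ N) :=
  ktVert_of_uniformiser q _ (vInf_ne_top' K₁ A₀ N q hqirr)
    (isPrincipalIdealRing_vInf' K₁ A₀ N q hqirr) (isUniformiser_vInf_natCast K₁ A₀ N q hqirr)

/-- **`KtVert q V_0`.** -/
theorem ktVert_vZero (W : ModelField K₁ N ≃ₐ[K₁] ModelField K₁ N) (q : ℕ)
    (hqirr : Irreducible ((q : ℕ) : A₀)) : KtVert q (vZero K₁ A₀ N W) :=
  ktVert_of_uniformiser q _ (vZero_ne_top' K₁ A₀ N W q hqirr)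
    (isPrincipalIdealRing_vZero' K₁ A₀ N W q hqirr)
    (isUniformiser_vZero_natCast K₁ A₀ N W q hqirr)

end OneLevel

/-! ### Two levels: (T1) -/

section TwoLevels

variable (M q : ℕ) [NeZero M] [NeZero q]
  (K₁ : Type) [Field K₁] [Algebra ℚ K₁]
  (A₀ : Type) [CommRing A₀] [IsDomain A₀] [IsDiscreteValuationRing A₀]
  [Algebra A₀ K₁] [IsFractionRing A₀ K₁]

/-- **(T1)** for `α`. -/
theorem alpha_mem_vInf_iff (y : ModelField K₁ M) :
    heckeAlphaBar K₁ M q y ∈ vInf K₁ A₀ (M * q) ↔ y ∈ vInf K₁ A₀ M := by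
  rw [mem_vInf_iff_mem_vGaussRing, mem_vInf_iff_mem_vGaussRing, coe_heckeAlphaBar]

theorem alpha_mem_nonunits_vInf_iff (y : ModelField K₁ M) :
    heckeAlphaBar K₁ M q y ∈ (vInf K₁ A₀ (M * q)).nonunits ↔ y ∈ (vInf K₁ A₀ M).nonunits := by
  rw [ValuationSubring.mem_nonunits_iff_or, ValuationSubring.mem_nonunits_iff_or, ← map_inv₀,
    alpha_mem_vInf_iff, map_eq_zero]

variable (W : ModelField K₁ (M * q) ≃ₐ[K₁] ModelField K₁ (M * q))
  (hW : IsAtkinLehnerModel K₁ M q W)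

include hW

/-- **(T1)** for `β`. -/
theorem beta_mem_vZero_iff (y : ModelField K₁ M) :
    heckeBetaBar K₁ M q y ∈ vZero K₁ A₀ (M * q) W ↔ y ∈ vInf K₁ A₀ M := by
  rw [mem_vZero_iff, hW.2, alpha_mem_vInf_iff]

theorem beta_mem_nonunits_vZero_iff (y : ModelField K₁ M) :
    heckeBetaBar K₁ M q y ∈ (vZero K₁ A₀ (M * q) W).nonunits ↔
      y ∈ (vInf K₁ A₀ M).nonunits := by
  rw [mem_nonunits_vZero_iff, hW.2, alpha_mem_nonunits_vInf_iff]

/-- `α y ∈ V_0 ↔ β y ∈ V_∞`. -/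
theorem alpha_mem_vZero_iff (y : ModelField K₁ M) :
    heckeAlphaBar K₁ M q y ∈ vZero K₁ A₀ (M * q) W ↔
      heckeBetaBar K₁ M q y ∈ vInf K₁ A₀ (M * q) := by
  rw [mem_vZero_iff, hW.1]

end TwoLevels

/-! ### Level `M q`: separation, approximation, residue degree one -/

section Level

variable (M q : ℕ) [NeZero M] [NeZero q]
  (K₁ : Type) [Field K₁] [Algebra ℚ K₁] [FiniteDimensional ℚ K₁]
  (A₀ : Type) [CommRing A₀] [IsDomain A₀] [IsDiscreteValuationRing A₀]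
  [Algebra A₀ K₁] [IsFractionRing A₀ K₁]
  (hq : q.Prime) (hqirr : Irreducible ((q : ℕ) : A₀))
  (W : ModelField K₁ (M * q) ≃ₐ[K₁] ModelField K₁ (M * q)) (hW : IsAtkinLehnerModel K₁ M q W)

include hq hqirr hW

/-- **`V_∞ ≠ V_0`.** -/
theorem vInf_ne_vZero : vInf K₁ A₀ (M * q) ≠ vZero K₁ A₀ (M * q) W := by
  intro heq
  obtain ⟨ε, hε1, hWε⟩ := Fermat.Agent.H66.SS.frac_sep M q K₁ A₀ hq hqirr.not_isUnit W hW
  have h1 : ε - 1 ∈ (vInf K₁ A₀ (M * q)).nonunits := (mem_nonunits_vInf_iff _).2 hε1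
  have h2 : ε ∈ (vZero K₁ A₀ (M * q) W).nonunits :=
    (mem_nonunits_vZero_iff W ε).2 ((mem_nonunits_vInf_iff _).2 hWε)
  rw [← heq] at h2
  rw [ValuationSubring.mem_nonunits_iff] at h1 h2
  have h3 : (vInf K₁ A₀ (M * q)).valuation (ε - (ε - 1)) < 1 :=
    lt_of_le_of_lt (Valuation.map_sub _ _ _) (max_lt h2 h1)
  rw [sub_sub_cancel, map_one] at h3
  exact lt_irrefl _ h3

/-- **(APPROX)** weak approximation for the pair `V_∞`, `V_0`. -/
theorem ktApprox (a b : ModelField K₁ (M * q)) :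
    ∃ g : ModelField K₁ (M * q), g - a ∈ (vInf K₁ A₀ (M * q)).nonunits ∧
      g - b ∈ (vZero K₁ A₀ (M * q) W).nonunits := by
  classical
  set V : Bool → ValuationSubring (ModelField K₁ (M * q)) :=
    fun i => bif i then vInf K₁ A₀ (M * q) else vZero K₁ A₀ (M * q) W with hVdef
  have hne := vInf_ne_vZero M q K₁ A₀ hq hqirr W hW
  have hinj : Function.Injective V := by
    intro i j hij
    cases i <;> cases j
    · rfl
    · exact absurd hij.symm hne
    · exact absurd hij hne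
    · rfl
  have hV : ∀ i, V i ≠ ⊤ := by
    intro i
    cases i
    · exact vZero_ne_top' K₁ A₀ (M * q) W q hqirr
    · exact vInf_ne_top' K₁ A₀ (M * q) q hqirr
  have hP : ∀ i, IsPrincipalIdealRing (V i) := by
    intro i
    cases i
    · exact isPrincipalIdealRing_vZero' K₁ A₀ (M * q) W q hqirr
    · exact isPrincipalIdealRing_vInf' K₁ A₀ (M * q) q hqirr
  obtain ⟨g, hg⟩ := Fermat.Agent.H18.SS2.weakApprox_pid V hinj hV hP
    (fun i => bif i then a else b) (fun _ => ((q : ℕ) : ModelField K₁ (M * q)))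
  obtain ⟨hq0, hq1, -⟩ := isUniformiser_vInf_natCast K₁ A₀ (M * q) q hqirr
  obtain ⟨-, hq1', -⟩ := isUniformiser_vZero_natCast K₁ A₀ (M * q) W q hqirr
  refine ⟨g, ?_, ?_⟩
  · have h := hg true
    have e : g - a = ((q : ℕ) : ModelField K₁ (M * q)) *
        ((g - a) / ((q : ℕ) : ModelField K₁ (M * q))) := by
      field_simp
    rw [e]
    exact mul_mem_nonunits_of_mem _ hq1 h
  · have h := hg false
    have e : g - b = ((q : ℕ) : ModelField K₁ (M * q)) *
        ((g - b) / ((q : ℕ) : ModelField K₁ (M * q))) := by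
      field_simp
    rw [e]
    exact mul_mem_nonunits_of_mem _ hq1' h

omit hW in
/-- **(F1)** residue degree one: every element of `V_∞` is congruent modulo `𝔪_∞` to
`α y`, `y ∈ V'`. -/
theorem ktFrac_alpha (hqM : ¬ q ∣ M) (z : ModelField K₁ (M * q))
    (hz : z ∈ vInf K₁ A₀ (M * q)) :
    ∃ y ∈ vInf K₁ A₀ M,
      z - heckeAlphaBar K₁ M q y ∈ (vInf K₁ A₀ (M * q)).nonunits := by
  letI : Algebra A₀ (ModelField K₁ (M * q)) :=
    ((algebraMap K₁ (ModelField K₁ (M * q))).comp (algebraMap A₀ K₁)).toAlgebra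
  haveI : IsScalarTower A₀ K₁ (ModelField K₁ (M * q)) :=
    IsScalarTower.of_algebraMap_eq (fun _ => rfl)
  have hcop : Nat.Coprime M q := ((Nat.Prime.coprime_iff_not_dvd hq).2 hqM).symm
  obtain ⟨W', hW'⟩ := Fermat.Agent.H62.SS.modelAtkinLehnerExists M q hcop K₁
  have hjq : jq ∈ modularFunctionFieldFull (M * q) := by
    have h := jqd_mem_full (M * q) (one_dvd (M * q))
    rwa [qExpand_one_apply] at h
  set x : ModelField K₁ (M * q) := ⟨coeffEmb K₁ jq, coeffEmb_mem_laurentBaseChange K₁ hjq⟩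
    with hxdef
  have hx : (x : LaurentSeries K₁) = coeffEmb K₁ jq := rfl
  have hxtr : Transcendental A₀ x :=
    Fermat.Agent.H58.modelTranscendental_jq (M * q) K₁ A₀ x hx
  obtain ⟨b₁, b₂, hb₁, hb₂, hb₂m, hzm⟩ :=
    Fermat.Agent.H66.SS.modelFrac M q hq hqM K₁ A₀ hqirr.not_isUnit ((q : ℕ) : A₀) hqirr x hx z
      (InV.exists_quot _ ((mem_vInf_iff z).1 hz))
  -- `α b₁`, `α b₂ ∈ V_∞`
  have hV : ∀ b : ModelField K₁ M,
      heckeAlphaBar K₁ M q b ∈ chartClosure A₀ (ModelField K₁ (M * q)) x →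
      heckeAlphaBar K₁ M q b ∈ vInf K₁ A₀ (M * q) := fun b hb =>
    (mem_vInf_vZero_of_mem_gaussClosure M q K₁ A₀ hqirr.not_isUnit ((q : ℕ) : A₀) hqirr x hx
      W' hW' _ (Fermat.Agent.H89.klg_chartClosure_le_gaussClosure hqirr hxtr hb)).1
  have hb₁V := hV b₁ hb₁
  have hb₂V := hV b₂ hb₂
  -- `α b₂` is a unit of `V_∞`
  have hb₂u : heckeAlphaBar K₁ M q b₂ ∉ (vInf K₁ A₀ (M * q)).nonunits := by
    intro h
    exact hb₂m (Fermat.Agent.H66.SS.fv_inM_exists_quot _ ((mem_nonunits_vInf_iff _).1 h) hqirr)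
  obtain ⟨hb₂0, hb₂inv⟩ := inv_mem_of_not_mem_nonunits _ hb₂u
  have hzm' : z * heckeAlphaBar K₁ M q b₂ - heckeAlphaBar K₁ M q b₁ ∈
      (vInf K₁ A₀ (M * q)).nonunits :=
    (mem_nonunits_vInf_iff _).2 (Fermat.Agent.H66.SS.fv_inM_of_quot _ hqirr.not_isUnit hzm)
  refine ⟨b₁ * b₂⁻¹, ?_, ?_⟩
  · rw [← alpha_mem_vInf_iff M q K₁ A₀, map_mul, map_inv₀]
    exact (vInf K₁ A₀ (M * q)).mul_mem _ _ hb₁V hb₂inv
  · have e : z - heckeAlphaBar K₁ M q (b₁ * b₂⁻¹) =
        (z * heckeAlphaBar K₁ M q b₂ - heckeAlphaBar K₁ M q b₁) *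
          (heckeAlphaBar K₁ M q b₂)⁻¹ := by
      rw [map_mul, map_inv₀]
      field_simp
    rw [e]
    exact mul_mem_nonunits_of_mem _ hzm' hb₂inv

/-- **(F2)** the `W`-twin: every element of `V_0` is congruent modulo `𝔪_0` to `β y`,
`y ∈ V'`. -/
theorem ktFrac_beta (hqM : ¬ q ∣ M) (z : ModelField K₁ (M * q))
    (hz : z ∈ vZero K₁ A₀ (M * q) W) :
    ∃ y ∈ vInf K₁ A₀ M,
      z - heckeBetaBar K₁ M q y ∈ (vZero K₁ A₀ (M * q) W).nonunits := by
  obtain ⟨y, hy, hzy⟩ := ktFrac_alpha M q K₁ A₀ hq hqirr hqM (W z) ((mem_vZero_iff W z).1 hz)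
  refine ⟨y, hy, ?_⟩
  rw [mem_nonunits_vZero_iff, map_sub, hW.2]
  exact hzy

end Level

end Fermat.Agent.H34.SS

end
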