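/-
helper34: P-SS row 971 (KT-C1 VAL2), part 3: helper55's `ModelVal2Statement M q`, UNCONDITIONAL.

`ktV K₁ A₀ N = vInf K₁ A₀ N` and `ktV0 K₁ A₀ M q W = vZero K₁ A₀ (M q) W` (the bridge of part 1),
then the table of part 2, helper7's `mem_gaussClosure_iff_vInf_vZero`, `isVertical_vInf`,
`isVertical_vZero`, and helper16's strong form of (INV) `ktU_map_div_of_vert`.
-/
import Fermat.Agent.H34.SS.KtValTable
import Fermat.Agent.H55.SS.KTModel
import Fermat.Agent.H16.KTS2Core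

set_option autoImplicit false
set_option linter.style.haveILetI false
set_option linter.unusedSectionVars false

noncomputable section

namespace Fermat.Agent.H34.SS

open ModularCurve
open Fermat.Agent.H22.KL Fermat.Agent.H48.QExp Fermat.Agent.H82.SS Fermat.Agent.H7.SS
open Fermat.Agent.H7.SS2 Fermat.Agent.H11.SS2 Fermat.Agent.H66 Fermat.Agent.H65
open Fermat.Agent.H55.SS (KtVert ktV ktV0 ModelVal2Statement IsModelFrobenius)

section Objects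

variable (K₁ : Type) [Field K₁] [Algebra ℚ K₁]
  (A₀ : Type) [CommRing A₀] [IsDomain A₀] [IsDiscreteValuationRing A₀]
  [Algebra A₀ K₁] [IsFractionRing A₀ K₁]

/-- helper55's `ktV` is helper7's `vInf`. -/
theorem ktV_eq_vInf (N : ℕ) : ktV K₁ A₀ N = vInf K₁ A₀ N :=
  (vInf_eq_mgVal K₁ A₀ N).symm

/-- helper55's `ktV0` is helper7's `vZero`. -/
theorem ktV0_eq_vZero (M q : ℕ)
    (W : ModelField K₁ (M * q) ≃ₐ[K₁] ModelField K₁ (M * q)) :
    ktV0 K₁ A₀ M q W = vZero K₁ A₀ (M * q) W := by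
  unfold ktV0
  rw [ktV_eq_vInf]
  rfl

end Objects

/-- **(INV), quotient form**: a ring automorphism preserving a vertical valuation ring `V`
(with uniformiser `q`) moves every `z ≠ 0` by a unit of `V`. -/
theorem ktInv_quot {E : Type} [Field E] {q : ℕ} {V : ValuationSubring E} (hV : KtVert q V)
    (hq0 : (q : E) ≠ 0) (φ : E ≃+* E) (hφ : ∀ z : E, φ z ∈ V ↔ z ∈ V) (z : E) (hz : z ≠ 0) :
    φ z / z ∈ V ∧ z / φ z ∈ V := by
  have h := Fermat.Agent.H16.ktU_map_div_of_vert hV hq0 φ (fun w => (hφ w).symm) z hz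
  obtain ⟨-, h1, h2⟩ := Fermat.Agent.H16.ktU_iff_inv.1 h
  refine ⟨h1, ?_⟩
  rwa [inv_div] at h2

theorem preserves_of_isModelFrobenius {K₁ : Type} [Field K₁] [Algebra ℚ K₁] {A₀ : Type}
    [CommRing A₀] [Algebra A₀ K₁] {q : ℕ} {φ₁ : K₁ ≃ₐ[ℚ] K₁}
    (hφ : IsModelFrobenius K₁ A₀ q φ₁) : Preserves A₀ (φ₁ : K₁ →+* K₁) := by
  intro a
  obtain ⟨b, hb, -⟩ := hφ a
  exact ⟨b, hb⟩

/-- **KT-C1 (VAL2)**: the two vertical valuations of the model of level `M q` and their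
tables. -/
theorem modelVal2 (M q : ℕ) [NeZero M] [NeZero q] (hq : q.Prime) (hqM : ¬ q ∣ M) :
    ModelVal2Statement M q := by
  intro K₁ _ _ _ A₀ _ _ _ _ _ _ _ hqirr x hx W hW φ₁ hφ
  have hσ : Preserves A₀ (φ₁ : K₁ →+* K₁) := preserves_of_isModelFrobenius hφ
  rw [ktV_eq_vInf K₁ A₀ (M * q), ktV0_eq_vZero K₁ A₀ M q W, ktV_eq_vInf K₁ A₀ M]
  have hqA : ¬ IsUnit ((q : ℕ) : A₀) := hqirr.not_isUnit
  have hV1 := ktVert_vInf K₁ A₀ (M * q) q hqirr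
  have hV2 := ktVert_vZero K₁ A₀ (M * q) W q hqirr
  have hV' := ktVert_vInf K₁ A₀ M q hqirr
  have hq0 : ((q : ℕ) : ModelField K₁ (M * q)) ≠ 0 :=
    (isUniformiser_vInf_natCast K₁ A₀ (M * q) q hqirr).1
  have hq0' : ((q : ℕ) : ModelField K₁ M) ≠ 0 :=
    (isUniformiser_vInf_natCast K₁ A₀ M q hqirr).1
  refine ⟨?_, ?_, hV1, hV2, ?_, ?_, ?_, ?_, ?_, ?_, ?_, ?_, ?_, ?_⟩
  · exact mem_gaussClosure_iff_vInf_vZero M q K₁ A₀ hqA ((q : ℕ) : A₀) hqirr x hx W hW hq hqM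
  · exact vInf_ne_vZero M q K₁ A₀ hq hqirr W hW
  · exact isVertical_vInf M q K₁ A₀ hqA ((q : ℕ) : A₀) hqirr x hx W hW
  · exact isVertical_vZero M q K₁ A₀ hqA ((q : ℕ) : A₀) hqirr x hx W hW
  · exact ktApprox M q K₁ A₀ hq hqirr W hW
  · exact ktInv_quot hV1 hq0 (modelSigma K₁ (M * q) φ₁)
      (modelSigma_mem_vInf_iff (M * q) φ₁ hσ)
  · exact ktInv_quot hV2 hq0 (modelSigma K₁ (M * q) φ₁)
      (modelSigma_mem_vZero_iff M q hq W hW φ₁ hσ)
  · exact ktInv_quot hV' hq0' (modelSigma K₁ M φ₁) (modelSigma_mem_vInf_iff M φ₁ hσ)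
  · exact alpha_mem_vInf_iff M q K₁ A₀
  · exact beta_mem_vZero_iff M q K₁ A₀ W hW
  · exact ktFrac_alpha M q K₁ A₀ hq hqirr hqM
  · exact ktFrac_beta M q K₁ A₀ hq hqirr W hW hqM

end Fermat.Agent.H34.SS

end
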